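import Fermat.Agent.S13.Local.NodalRed
import Fermat.Agent.S13.Local.NodalKernelZc

/-!
# S15, block E2 (local side), part 1: multiples of a point of prime order on the nodal model

`D : NodalData K G a₁ a₂ a₄` with `Hyp v a₁ a₂ a₄` (multiplicative reduction, node at `(0,0)`).
For a point `Q` of prime order `N`:

* `multiples_at_node`: if `Q` does not have non-singular reduction, neither has any multiple
  `i • Q` (`N ∤ i`); at such a point `Y`, `T = 2 Y + a₁ X` and
  `tq = 6 X² + b₂ X + 2 a₄` lie in the maximal ideal (`node_facts`).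
* `multiples_unit`: if `Q` has non-singular reduction, `N` is odd and a unit, then `X` and
  `T` are units at every multiple `i • Q` (`N ∤ i`).
-/

set_option autoImplicit false
set_option linter.unusedSectionVars false
set_option linter.unusedVariables false

namespace Fermat.Agent.S15.E2.Local.Nodal

open Fermat.Agent.S13.Local Fermat.Agent.S13.Local.NodalData
open Fermat.Agent.S13.Local.NodalRed Fermat.Agent.S13.Local.NodalKernel

variable {K : Type*} [Field K] {G : Type*} [AddCommGroup G] {a₁ a₂ a₄ : K}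
  (D : NodalData K G a₁ a₂ a₄)
  {Γ₀ : Type*} [LinearOrderedCommGroupWithZero Γ₀] (v : Valuation K Γ₀)

/-- Velu's quantity `6 x² + b₂ x + b₄` in the nodal coordinates (`b₄ = 2 a₄`). -/
def tq (P : G) : K := 6 * D.X P ^ 2 + (a₁ ^ 2 + 4 * a₂) * D.X P + 2 * a₄

theorem tq_eq (P : G) : tq D P = 2 * D.M P + a₁ * D.T P := (two_M_add D P).symm

/-- At a point reducing to the node, `Y`, `T`, `M` and `tq` lie in the maximal ideal. -/
theorem node_facts (H : Hyp v a₁ a₂ a₄) {P : G} (hP : P ≠ 0) (hX : v (D.X P) < 1) :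
    v (D.Y P) < 1 ∧ v (D.T P) < 1 ∧ v (D.M P) < 1 ∧ v (tq D P) < 1 := by
  have hYle : v (D.Y P) ≤ 1 := val_Y_le_one D v H hP hX.le
  have h2 : v (2 : K) ≤ 1 := val_ofNat_le_one 2
  have h3 : v (3 : K) ≤ 1 := val_ofNat_le_one 3
  have hY : v (D.Y P) < 1 := by
    by_contra hcon
    have hY1 : v (D.Y P) = 1 := le_antisymm hYle (not_lt.mp hcon)
    have e := D.eqn P hP
    have e' : D.Y P ^ 2 = D.X P ^ 3 + a₂ * D.X P ^ 2 + a₄ * D.X P - a₁ * D.X P * D.Y P := by
      linear_combination e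
    have hlt : v (D.Y P ^ 2) < 1 := by
      rw [e']
      refine val_sub_lt_one (val_add_lt_one (val_add_lt_one ?_ ?_) ?_) ?_
      · have : D.X P ^ 3 = D.X P * D.X P ^ 2 := by ring
        rw [this]; exact val_mul_lt_one_left hX (val_pow_le_one hX.le 2)
      · have : a₂ * D.X P ^ 2 = D.X P * (a₂ * D.X P) := by ring
        rw [this]; exact val_mul_lt_one_left hX (val_mul_le_one H.a2 hX.le)
      · exact val_mul_lt_one_left H.a4 hX.le
      · exact val_mul_lt_one_left (val_mul_lt_one_right H.a1 hX) hYle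
    rw [map_pow, hY1, one_pow] at hlt
    exact lt_irrefl _ hlt
  have hT : v (D.T P) < 1 := by
    unfold T
    exact val_add_lt_one (val_mul_lt_one_right h2 hY) (val_mul_lt_one_right H.a1 hX)
  have hM : v (D.M P) < 1 := by
    unfold M
    refine val_sub_lt_one (val_add_lt_one (val_add_lt_one ?_ ?_) H.a4)
      (val_mul_lt_one_right H.a1 hY)
    · exact val_mul_lt_one_right h3 (by rw [sq]; exact val_mul_lt_one_left hX hX.le)
    · exact val_mul_lt_one_right (val_mul_le_one h2 H.a2) hX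
  refine ⟨hY, hT, hM, ?_⟩
  rw [tq_eq]
  exact val_add_lt_one (val_mul_lt_one_right h2 hM) (val_mul_lt_one_right H.a1 hT)

/-- A point of prime order without non-singular reduction: every non-trivial multiple reduces
to the node. -/
theorem multiples_at_node (H : Hyp v a₁ a₂ a₄) {N : ℕ} (hN : N.Prime) {Q : G}
    (hNQ : N • Q = 0) (hQ : ¬ D.E0 v Q) {i : ℕ} (hi : ¬ N ∣ i) :
    i • Q ≠ 0 ∧ v (D.X (i • Q)) < 1 := by
  have h1 : ¬ D.E0 v (i • Q) := fun h => hQ (e0_of_nsmul D v H hN hNQ hi h)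
  constructor
  · intro h0
    exact h1 (Or.inl h0)
  · by_contra hcon
    exact h1 (Or.inr (not_lt.mp hcon))

/-- Multiples of a point of exact prime order. -/
theorem nsmul_ne_zero_of_prime {N : ℕ} (hN : N.Prime) {Q : G} (hQ0 : Q ≠ 0) (hNQ : N • Q = 0)
    {i : ℕ} (hi : ¬ N ∣ i) : i • Q ≠ 0 := by
  intro h0
  have hcop : Nat.Coprime i N := (Nat.Coprime.symm ((Nat.Prime.coprime_iff_not_dvd hN).mpr hi))
  obtain ⟨k, -, hk⟩ := Nat.exists_mul_mod_eq_one_of_coprime hcop hN.one_lt
  have h2 : i * k = N * (i * k / N) + 1 := by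
    have := Nat.div_add_mod (i * k) N
    omega
  have h1 : (i * k) • Q = Q := by
    rw [h2, add_nsmul, mul_nsmul, hNQ, smul_zero, zero_add, one_nsmul]
  apply hQ0
  rw [← h1, mul_nsmul, h0, smul_zero]

/-- A point of odd prime order `N` (a unit) with non-singular reduction: `X` and `T` are units at
every non-trivial multiple. -/
theorem multiples_unit (H : Hyp v a₁ a₂ a₄) {N : ℕ} (hN : N.Prime) (hN2 : N ≠ 2)
    (hvN : v (N : K) = 1) {Q : G} (hQ0 : Q ≠ 0) (hNQ : N • Q = 0) (hQ : D.E0 v Q)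
    {i : ℕ} (hi : ¬ N ∣ i) :
    i • Q ≠ 0 ∧ v (D.X (i • Q)) = 1 ∧ v (D.T (i • Q)) = 1 := by
  have hP0 : i • Q ≠ 0 := nsmul_ne_zero_of_prime hN hQ0 hNQ hi
  set P := i • Q with hPdef
  have hNP : N • P = 0 := by
    rw [hPdef, smul_comm, hNQ, smul_zero]
  have hE0 : D.E0 v P := e0_nsmul D v H hQ i
  have htors : ∀ R, D.K1 v R → N • R = 0 → R = 0 :=
    fun R hR hNR => eq_zero_of_k1_of_nsmul D v H hvN R hR hNR
  have hX1 : v (D.X P) = 1 := by
    rcases hE0 with h0 | h1
    · exact absurd h0 hP0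
    · refine le_antisymm ?_ h1
      by_contra hcon
      exact hP0 (htors P (Or.inr (not_le.mp hcon)) hNP)
  refine ⟨hP0, hX1, ?_⟩
  have hTle : v (D.T P) ≤ 1 := val_T_le_one D v H hP0 hX1.le
  by_contra hcon
  have hT : v (D.T P) < 1 := lt_of_le_of_ne hTle hcon
  have hnP0 : -P ≠ 0 := neg_ne_zero.mpr hP0
  have hx : v (D.X P - D.X (-P)) < 1 := by
    rw [D.X_neg P hP0, sub_self, map_zero]; exact zero_lt_one
  have hy : v (D.Y P - D.Y (-P)) < 1 := by
    have : D.Y P - D.Y (-P) = D.T P := by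
      rw [D.Y_neg P hP0]; unfold T; ring
    rw [this]; exact hT
  have hNnP : N • (-P) = 0 := by rw [smul_neg, hNP, neg_zero]
  have heq : P = -P := eq_of_reduction_eq D v H htors hP0 hnP0 hX1 hx hy hNP hNnP
  have h2P : 2 • P = 0 := by
    rw [two_nsmul]
    nth_rewrite 2 [heq]
    exact add_neg_cancel P
  -- `N` odd
  have hodd : ¬ N ∣ 2 := by
    intro hd
    have := (Nat.prime_dvd_prime_iff_eq hN Nat.prime_two).mp hd
    exact hN2 this
  exact nsmul_ne_zero_of_prime hN hP0 hNP hodd h2P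

end Fermat.Agent.S15.E2.Local.Nodal
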