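import Fermat.Agent.S58.Mult.Unipotent
import Fermat.Agent.S58.Red.Good
import Fermat.Agent.S15.E2.Local.Nodal
import Fermat.Prelude.Def_EllipticCurve_ZeroComponentAt

/-!
# S15, block E2 (local side), part 2: the nodal model of an integral curve with multiplicative
reduction, and the bridge `InZeroComponentAt ↔ NodalData.E0`

`W : WeierstrassCurve ℤ`, `q ∣ Δ`, `q ∤ c₄`, `A` a valuation subring of `ℚ̄` over `q`.

* `exists_nodal`: integral `r t` such that the translate `V = ⟨1, r, 0, t⟩ • W_ℚ̄` is in the nodal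
  form of `S13/Local` with the standing hypotheses `NodalData.Hyp` (the first half of the proof of
  `S58.Mult.Unipotent.unipotent_of_multiplicative`, repackaged).
* `inZero_phi_iff`: for a point `P'` of `V`, the image `phi r t P'` on `W_ℚ̄` is in the zero
  component at `A` (Prelude's `InZeroComponentAt`) iff `P'` is in `NodalData.E0`.
-/

set_option autoImplicit false
set_option linter.unusedSectionVars false
set_option linter.unusedVariables false

noncomputable section

namespace Fermat.Agent.S15.E2.Local.Bridge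

open WeierstrassCurve WeierstrassCurve.Affine WeierstrassCurve.Affine.Point
open Fermat.Agent.S13.Local Fermat.Agent.S13.Local.NodalInst
open Fermat.Agent.S13.Local.NodalRed
open Fermat.Agent.S13.CU.VarChange
open Fermat.Agent.S58.Mult
open Fermat.Agent.S58.Mult.Unipotent
open Fermat.Agent.S58.Red.ResidueRel Fermat.Agent.S58.Red.Good
open Fermat.Agent.S15.E2.Local.Nodal

local notation "Qbar" => AlgebraicClosure ℚ

variable (W : WeierstrassCurve ℤ)

/-- The relations between the coefficients of `W_ℚ̄` and of its translate. -/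
structure TransRel (r t : Qbar) : Prop where
  a1 : (V (EQ W) r t).a₁ = ((EQ W)⁄Qbar).a₁
  a2 : (V (EQ W) r t).a₂ = ((EQ W)⁄Qbar).a₂ + 3 * r
  a3 : ((EQ W)⁄Qbar).a₃ + r * ((EQ W)⁄Qbar).a₁ + 2 * t = 0
  a4 : (V (EQ W) r t).a₄
      = ((EQ W)⁄Qbar).a₄ + 2 * r * ((EQ W)⁄Qbar).a₂ - t * ((EQ W)⁄Qbar).a₁ + 3 * r ^ 2

/-- **The nodal model.** -/
theorem exists_nodal {q : ℕ} (hq : q.Prime) (hqΔ : (q : ℤ) ∣ W.Δ)
    (hqc : ¬ (q : ℤ) ∣ W.c₄) (hΔ0 : W.Δ ≠ 0) (A : ValuationSubring Qbar)
    (hA : A.LiesOverPrime q) :
    ∃ r t : Qbar, r ∈ A ∧ t ∈ A ∧ TransRel W r t ∧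
      ∃ hV : IsNodalForm (V (EQ W) r t),
        NodalData.Hyp A.valuation (V (EQ W) r t).a₁ (V (EQ W) r t).a₂ (V (EQ W) r t).a₄ := by
  have hint : ∀ n : ℤ, A.valuation ((n : ℤ) : Qbar) ≤ 1 := fun n =>
    (A.valuation_le_one_iff _).mpr (intCast_mem A n)
  have h2 : (2 : Qbar) ≠ 0 := two_ne_zero
  obtain ⟨r, t, hr, ht, h3, h6, h4⟩ :=
    NodeTorsion.exists_node_torsion (A := A) ((EQ W)⁄Qbar) h2
      (by rw [a₁_eq]; exact hint _) (by rw [a₂_eq]; exact hint _) (by rw [a₃_eq]; exact hint _)
      (by rw [a₄_eq]; exact hint _) (by rw [a₆_eq]; exact hint _)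
      (by rw [Δ_eq]; exact Fermat.Agent.S05.LocalVal.intCast_valuation_lt_one hq hA hqΔ)
      (by rw [c₄_eq]; exact Fermat.Agent.S05.LocalVal.intCast_valuation_eq_one hq hA hqc)
  have hrA : r ∈ A := (A.valuation_le_one_iff _).mp hr
  have htA : t ∈ A := (A.valuation_le_one_iff _).mp ht
  have ha1 : (V (EQ W) r t).a₁ = ((EQ W)⁄Qbar).a₁ := by
    simp [V, variableChange_a₁]
  have ha2 : (V (EQ W) r t).a₂ = ((EQ W)⁄Qbar).a₂ + 3 * r := by
    simp [V, variableChange_a₂]
  have ha3 : (V (EQ W) r t).a₃ = 0 := by
    simp only [V, variableChange_a₃, trans_r, trans_t]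
    rw [h3, mul_zero]
  have ha4 : (V (EQ W) r t).a₄
      = ((EQ W)⁄Qbar).a₄ + 2 * r * ((EQ W)⁄Qbar).a₂ - t * ((EQ W)⁄Qbar).a₁ + 3 * r ^ 2 := by
    simp [V, variableChange_a₄]
  have ha6 : (V (EQ W) r t).a₆ = 0 := by
    simp only [V, variableChange_a₆, trans_r, trans_t]
    rw [h6, mul_zero]
  have hΔ : (V (EQ W) r t).Δ ≠ 0 := by
    simp only [V, variableChange_Δ]
    rw [Δ_eq]
    simp
    exact hΔ0
  have hV : IsNodalForm (V (EQ W) r t) := ⟨ha3, ha6, hΔ⟩
  have hle : ∀ {a b : Qbar}, A.valuation a ≤ 1 → A.valuation b ≤ 1 → A.valuation (a * b) ≤ 1 := by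
    intro a b ha hb
    rw [map_mul]
    calc A.valuation a * A.valuation b ≤ 1 * 1 := mul_le_mul' ha hb
      _ = 1 := one_mul 1
  have hadd : ∀ {a b : Qbar}, A.valuation a ≤ 1 → A.valuation b ≤ 1 →
      A.valuation (a + b) ≤ 1 :=
    fun ha hb => le_trans (A.valuation.map_add _ _) (max_le ha hb)
  have hnat : ∀ n : ℕ, A.valuation ((n : ℕ) : Qbar) ≤ 1 :=
    fun n => (A.valuation_le_one_iff _).mpr (natCast_mem A n)
  refine ⟨r, t, hrA, htA, ⟨ha1, ha2, h3, ha4⟩, hV, ?_, ?_, ?_, ?_⟩
  · rw [ha1, a₁_eq]; exact hint _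
  · rw [ha2, a₂_eq]
    refine hadd (hint _) (hle ?_ hr)
    have : (3 : Qbar) = ((3 : ℕ) : Qbar) := by norm_num
    rw [this]; exact hnat 3
  · rw [ha4]; exact h4
  · have hc4 : (V (EQ W) r t).c₄ = ((EQ W)⁄Qbar).c₄ := by
      simp [V, variableChange_c₄]
    have e : ((V (EQ W) r t).a₁ ^ 2 + 4 * (V (EQ W) r t).a₂) ^ 2
        = (V (EQ W) r t).c₄ + 48 * (V (EQ W) r t).a₄ := by
      rw [WeierstrassCurve.c₄, WeierstrassCurve.b₂, WeierstrassCurve.b₄, ha3]; ring
    have h48 : A.valuation (48 * (V (EQ W) r t).a₄) < 1 := by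
      rw [map_mul]
      have : (48 : Qbar) = ((48 : ℕ) : Qbar) := by norm_num
      calc A.valuation (48 : Qbar) * A.valuation (V (EQ W) r t).a₄
          ≤ 1 * A.valuation (V (EQ W) r t).a₄ := by
            refine mul_le_mul_left ?_ _
            rw [this]; exact hnat 48
        _ = A.valuation (V (EQ W) r t).a₄ := one_mul _
        _ < 1 := by rw [ha4]; exact h4
    have hc4v : A.valuation (V (EQ W) r t).c₄ = 1 := by
      rw [hc4, c₄_eq]
      exact Fermat.Agent.S05.LocalVal.intCast_valuation_eq_one hq hA hqc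
    have h : A.valuation (((V (EQ W) r t).a₁ ^ 2 + 4 * (V (EQ W) r t).a₂) ^ 2) = 1 := by
      rw [e, Valuation.map_add_eq_of_lt_left _ (by rw [hc4v]; exact h48), hc4v]
    rw [map_pow] at h
    exact (pow_eq_one_iff_of_nonneg zero_le two_ne_zero).mp h

/-! ### The bridge -/

section bridge

variable {W} {A : ValuationSubring Qbar}

/-- `InZeroComponentAt` at an affine point. -/
theorem inZero_some_iff {x y : Qbar} (h : ((EQ W)⁄Qbar).toAffine.Nonsingular x y) :
    W.InZeroComponentAt A (Point.some x y h) ↔
      (x ∉ A ∨ ∃ xb yb, RedTo A x xb ∧ RedTo A y yb ∧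
        (W.map (Int.castRingHom (IsLocalRing.ResidueField A))).toAffine.Nonsingular xb yb) := by
  unfold WeierstrassCurve.InZeroComponentAt
  constructor
  · rintro (h0 | ⟨x', y', h', heq, hor⟩)
    · exact absurd h0 (Point.some_ne_zero _)
    · have hx : x = x' := by injection heq
      have hy : y = y' := by injection heq
      subst hx; subst hy
      rcases hor with hx | ⟨hx, hy, hns⟩
      · exact Or.inl hx
      · exact Or.inr ⟨_, _, ⟨hx, rfl⟩, ⟨hy, rfl⟩, hns⟩
  · rintro (hx | ⟨xb, yb, ⟨hx, rfl⟩, ⟨hy, rfl⟩, hns⟩)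
    · exact Or.inr ⟨x, y, h, rfl, Or.inl hx⟩
    · exact Or.inr ⟨x, y, h, rfl, Or.inr ⟨hx, hy, hns⟩⟩

theorem redTo_coeff (n : ℤ) :
    RedTo A (algebraMap ℚ Qbar (Int.castRingHom ℚ n))
      (Int.castRingHom (IsLocalRing.ResidueField A) n) := by
  rw [eq_intCast, map_intCast, eq_intCast]
  exact redTo_intCast n

variable {r t : Qbar}

/-- **The bridge**: zero component of the integral model = `E0` of the nodal model. -/
theorem inZero_phi_iff (hr : r ∈ A) (ht : t ∈ A) (hT : TransRel W r t)
    (hV : IsNodalForm (V (EQ W) r t))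
    (H : NodalData.Hyp A.valuation (V (EQ W) r t).a₁ (V (EQ W) r t).a₂ (V (EQ W) r t).a₄)
    (P' : (V (EQ W) r t).toAffine.Point) :
    W.InZeroComponentAt A (phi (W' := EQ W) r t P') ↔ (nodalData hV).E0 A.valuation P' := by
  cases P' with
  | zero =>
    constructor
    · intro _; exact Or.inl rfl
    · intro _; exact Or.inl (map_zero _)
  | some X' Y' h' =>
    have hP0 : (Point.some X' Y' h' : (V (EQ W) r t).toAffine.Point) ≠ 0 := Point.some_ne_zero _
    -- coordinates of the image
    have hform : ∃ h : ((EQ W)⁄Qbar).toAffine.Nonsingular (X' + r) (Y' + t),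
        phi (W' := EQ W) r t (Point.some X' Y' h') = Point.some (X' + r) (Y' + t) h := by
      have hx := ptX_phi (W' := EQ W) r t hP0
      have hy := ptY_phi (W' := EQ W) r t hP0
      have hne := phi_ne_zero (W' := EQ W) r t hP0
      revert hx hy hne
      generalize phi (W' := EQ W) r t (Point.some X' Y' h') = R
      intro hx hy hne
      cases R with
      | zero => exact absurd rfl hne
      | some x y h =>
        simp only [ptX_some, ptY_some] at hx hy
        subst hx; subst hy
        exact ⟨h, rfl⟩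
    obtain ⟨h, hphi⟩ := hform
    rw [hphi]
    refine (inZero_some_iff (W := W) (A := A) h).trans ?_
    set D := nodalData hV with hD
    have hDX : D.X (Point.some X' Y' h') = X' := rfl
    have hDY : D.Y (Point.some X' Y' h') = Y' := rfl
    have hrv : A.valuation r ≤ 1 := (A.valuation_le_one_iff _).mpr hr
    have htv : A.valuation t ≤ 1 := (A.valuation_le_one_iff _).mpr ht
    -- the partial derivatives in the two coordinate systems
    have eT : D.T (Point.some X' Y' h')
        = 2 * (Y' + t) + ((EQ W)⁄Qbar).a₁ * (X' + r) + ((EQ W)⁄Qbar).a₃ := by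
      unfold NodalData.T
      rw [hDX, hDY, hT.a1]
      linear_combination -hT.a3
    have eM : D.M (Point.some X' Y' h')
        = -(((EQ W)⁄Qbar).a₁ * (Y' + t) - (3 * (X' + r) ^ 2 + 2 * ((EQ W)⁄Qbar).a₂ * (X' + r)
            + ((EQ W)⁄Qbar).a₄)) := by
      unfold NodalData.M
      rw [hDX, hDY, hT.a1, hT.a2, hT.a4]
      ring
    constructor
    · -- zero component ⇒ E0
      rintro (hx | ⟨xb, yb, hxb, hyb, hns⟩)
      · right
        rw [hDX]
        have hx1 : 1 < A.valuation (X' + r) := by
          rw [← not_le, A.valuation_le_one_iff]; exact hx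
        have : A.valuation X' = A.valuation (X' + r) := by
          have h1 : X' = (X' + r) + (-r) := by ring
          conv_lhs => rw [h1]
          apply Valuation.map_add_eq_of_lt_left
          rw [Valuation.map_neg]
          exact lt_of_le_of_lt hrv hx1
        rw [this]; exact hx1.le
      · by_contra hE0
        have hXlt : A.valuation (D.X (Point.some X' Y' h')) < 1 := by
          by_contra hcon
          exact hE0 (Or.inr (not_lt.mp hcon))
        obtain ⟨_, hTlt, hMlt, _⟩ := node_facts D A.valuation H hP0 hXlt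
        rw [nonsingular_iff'] at hns
        have hredT : RedTo A (2 * (Y' + t) + ((EQ W)⁄Qbar).a₁ * (X' + r) + ((EQ W)⁄Qbar).a₃)
            (2 * yb + (W.map (Int.castRingHom (IsLocalRing.ResidueField A))).toAffine.a₁ * xb
              + (W.map (Int.castRingHom (IsLocalRing.ResidueField A))).toAffine.a₃) :=
          ((RedTo.two.mul hyb).add ((redTo_coeff _).mul hxb)).add (redTo_coeff _)
        have hredM : RedTo A (((EQ W)⁄Qbar).a₁ * (Y' + t) - (3 * (X' + r) ^ 2
              + 2 * ((EQ W)⁄Qbar).a₂ * (X' + r) + ((EQ W)⁄Qbar).a₄))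
            ((W.map (Int.castRingHom (IsLocalRing.ResidueField A))).toAffine.a₁ * yb
              - (3 * xb ^ 2
                + 2 * (W.map (Int.castRingHom (IsLocalRing.ResidueField A))).toAffine.a₂ * xb
                + (W.map (Int.castRingHom (IsLocalRing.ResidueField A))).toAffine.a₄)) :=
          ((redTo_coeff _).mul hyb).sub
            (((RedTo.three.mul (hxb.pow 2)).add ((RedTo.two.mul (redTo_coeff _)).mul hxb)).add
              (redTo_coeff _))
        rcases hns.2 with hN | hN
        · have := hredM.v_eq_one hN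
          rw [eM, Valuation.map_neg] at hMlt
          rw [this] at hMlt
          exact lt_irrefl _ hMlt
        · have := hredT.v_eq_one hN
          rw [eT, this] at hTlt
          exact lt_irrefl _ hTlt
    · -- E0 ⇒ zero component
      rintro (h0 | h1)
      · exact absurd h0 hP0
      · rw [hDX] at h1
        rcases eq_or_lt_of_le h1 with h1' | h1'
        · -- unit `X'`
          right
          have hX1 : A.valuation (D.X (Point.some X' Y' h')) = 1 := h1'.symm
          have hXle : A.valuation X' ≤ 1 := h1'.symm.le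
          have hYle : A.valuation Y' ≤ 1 := val_Y_le_one D A.valuation H hP0 hX1.le
          have hxA : X' + r ∈ A :=
            A.add_mem _ _ ((A.valuation_le_one_iff _).mp hXle) hr
          have hyA : Y' + t ∈ A :=
            A.add_mem _ _ ((A.valuation_le_one_iff _).mp hYle) ht
          obtain ⟨xb, hxb⟩ := exists_redTo hxA
          obtain ⟨yb, hyb⟩ := exists_redTo hyA
          refine ⟨xb, yb, hxb, hyb, ?_⟩
          rw [nonsingular_iff']
          have hredT : RedTo A (2 * (Y' + t) + ((EQ W)⁄Qbar).a₁ * (X' + r) + ((EQ W)⁄Qbar).a₃)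
              (2 * yb + (W.map (Int.castRingHom (IsLocalRing.ResidueField A))).toAffine.a₁ * xb
                + (W.map (Int.castRingHom (IsLocalRing.ResidueField A))).toAffine.a₃) :=
            ((RedTo.two.mul hyb).add ((redTo_coeff _).mul hxb)).add (redTo_coeff _)
          have hredM : RedTo A (((EQ W)⁄Qbar).a₁ * (Y' + t) - (3 * (X' + r) ^ 2
                + 2 * ((EQ W)⁄Qbar).a₂ * (X' + r) + ((EQ W)⁄Qbar).a₄))
              ((W.map (Int.castRingHom (IsLocalRing.ResidueField A))).toAffine.a₁ * yb
                - (3 * xb ^ 2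
                  + 2 * (W.map (Int.castRingHom (IsLocalRing.ResidueField A))).toAffine.a₂ * xb
                  + (W.map (Int.castRingHom (IsLocalRing.ResidueField A))).toAffine.a₄)) :=
            ((redTo_coeff _).mul hyb).sub
              (((RedTo.three.mul (hxb.pow 2)).add ((RedTo.two.mul (redTo_coeff _)).mul hxb)).add
                (redTo_coeff _))
          refine ⟨?_, ?_⟩
          · -- the reduced equation
            have he := (equation_iff _ _).mp h.1
            rw [equation_iff]
            have hl : RedTo A ((Y' + t) ^ 2 + ((EQ W)⁄Qbar).a₁ * (X' + r) * (Y' + t)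
                  + ((EQ W)⁄Qbar).a₃ * (Y' + t))
                (yb ^ 2 + (W.map (Int.castRingHom (IsLocalRing.ResidueField A))).toAffine.a₁
                    * xb * yb
                  + (W.map (Int.castRingHom (IsLocalRing.ResidueField A))).toAffine.a₃ * yb) :=
              ((hyb.pow 2).add (((redTo_coeff _).mul hxb).mul hyb)).add ((redTo_coeff _).mul hyb)
            have hr' : RedTo A ((X' + r) ^ 3 + ((EQ W)⁄Qbar).a₂ * (X' + r) ^ 2
                  + ((EQ W)⁄Qbar).a₄ * (X' + r) + ((EQ W)⁄Qbar).a₆)
                (xb ^ 3 + (W.map (Int.castRingHom (IsLocalRing.ResidueField A))).toAffine.a₂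
                    * xb ^ 2
                  + (W.map (Int.castRingHom (IsLocalRing.ResidueField A))).toAffine.a₄ * xb
                  + (W.map (Int.castRingHom (IsLocalRing.ResidueField A))).toAffine.a₆) :=
              (((hxb.pow 3).add ((redTo_coeff _).mul (hxb.pow 2))).add
                ((redTo_coeff _).mul hxb)).add (redTo_coeff _)
            rw [he] at hl
            exact hl.unique hr'
          · rcases nonsing D A.valuation H hP0 hX1 with hTu | hMu
            · right
              rw [eT] at hTu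
              exact hredT.ne_zero_iff.mpr hTu
            · left
              rw [eM, Valuation.map_neg] at hMu
              exact hredM.ne_zero_iff.mpr hMu
        · -- non-integral `X'`
          left
          intro hxA
          have hx1 : A.valuation (X' + r) ≤ 1 := (A.valuation_le_one_iff _).mpr hxA
          have : A.valuation (X' + r) = A.valuation X' := by
            apply Valuation.map_add_eq_of_lt_left
            exact lt_of_le_of_lt hrv h1'
          rw [this] at hx1
          exact absurd hx1 (not_le.mpr h1')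

end bridge

end Fermat.Agent.S15.E2.Local.Bridge
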