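import Fermat.Agent.S15.E2.Local.Zero
import Fermat.Agent.S13.CU.Main

/-!
# S15, block E2 (local side), part 5: a point of prime order INSIDE the zero component

`W : WeierstrassCurve ℤ`, `q ∣ Δ`, `q ∤ c₄`, `A` over `q`, `N ≠ q` an odd prime, `Q ∈ E(ℚ̄)` of
order `N` in the zero component at `A`.

* `exists_torsion_at_node`: some non-zero `N`-torsion point of the nodal model reduces to the node
  (from main's valuation-sum identity `S13.Iface.ValSum` at the root `e = 0`).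
* `mem_zmultiples_of_mem`: group theory: in a group whose `N`-torsion has `N²` elements, a
  subgroup that contains `Q` of order `N` but not all of the `N`-torsion meets the `N`-torsion in
  `⟨Q⟩`.
* `off_line_at_node`: the `N`-torsion points outside `⟨Q⟩` reduce to the node.
* `val_c4'_eq_one`: with the identity `120 ∑_{P ∈ E[N] ∖ 0} t_P = (N⁴ - 1) c₄` (Velu's
  quotient by `E[N]` is the `N`-scaling of the curve), Velu's `c₄' = c₄ + 120 ∑_{i=1}^{N-1} t(iQ)`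
  is a unit.
* `quot_mem`: with (V-DELTA) for `⟨Q⟩`: `v (j / j' ^ N) < 1`.
-/

set_option autoImplicit false
set_option linter.unusedSectionVars false
set_option linter.unusedVariables false

noncomputable section

namespace Fermat.Agent.S15.E2.Local.Inf

open WeierstrassCurve WeierstrassCurve.Affine WeierstrassCurve.Affine.Point
open Fermat.Agent.S13.Local Fermat.Agent.S13.Local.NodalInst
open Fermat.Agent.S13.Local.NodalRed
open Fermat.Agent.S58.Mult.Unipotent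
open Fermat.Agent.S15.E2.Local.Nodal Fermat.Agent.S15.E2.Local.Bridge
open Fermat.Agent.S15.E2.Local.Quant Fermat.Agent.S15.E2.Local.Zero

local notation "Qbar" => AlgebraicClosure ℚ

/-! ### Group theory -/

theorem addOrderOf_eq_of_prime {G : Type*} [AddCommGroup G] {N : ℕ} (hN : N.Prime) {Q : G}
    (hQ0 : Q ≠ 0) (hNQ : N • Q = 0) : addOrderOf Q = N := by
  have hd : addOrderOf Q ∣ N := addOrderOf_dvd_of_nsmul_eq_zero hNQ
  rcases (Nat.dvd_prime hN).mp hd with h1 | h1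
  · exact absurd (AddMonoid.addOrderOf_eq_one_iff.mp h1) hQ0
  · exact h1

theorem mem_zmultiples_of_mem {G : Type*} [AddCommGroup G] {N : ℕ} (hN : N.Prime)
    (hcard : Nat.card (Submodule.torsionBy ℤ G N) = N ^ 2)
    (H : AddSubgroup G) {Q T₀ : G} (hQ0 : Q ≠ 0) (hNQ : N • Q = 0) (hQH : Q ∈ H)
    (hNT : N • T₀ = 0) (hT : T₀ ∉ H) {P : G} (hNP : N • P = 0) (hP : P ∈ H) :
    P ∈ AddSubgroup.zmultiples Q := by
  set M : AddSubgroup G := (Submodule.torsionBy ℤ G N).toAddSubgroup with hM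
  have hmemM : ∀ x : G, x ∈ M ↔ N • x = 0 := by
    intro x
    rw [hM, Submodule.mem_toAddSubgroup, Submodule.mem_torsionBy_iff, natCast_zsmul]
  have hcardM : Nat.card M = N ^ 2 := hcard
  have hN0 : N ^ 2 ≠ 0 := pow_ne_zero 2 hN.ne_zero
  have : Finite M := Nat.finite_of_card_ne_zero (by rw [hcardM]; exact hN0)
  set H₀ : AddSubgroup G := M ⊓ H with hH₀
  set C₀ : AddSubgroup G := AddSubgroup.zmultiples Q with hC₀
  have hQH₀ : Q ∈ H₀ := ⟨(hmemM Q).mpr hNQ, hQH⟩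
  have hle : C₀ ≤ H₀ := (AddSubgroup.zmultiples_le).mpr hQH₀
  have hH₀M : H₀ ≤ M := inf_le_left
  have hcardC : Nat.card C₀ = N := by
    rw [hC₀, Nat.card_zmultiples, addOrderOf_eq_of_prime hN hQ0 hNQ]
  have hd1 : Nat.card H₀ ∣ N ^ 2 := by
    rw [← hcardM]; exact AddSubgroup.card_dvd_of_le hH₀M
  have hd2 : N ∣ Nat.card H₀ := by
    rw [← hcardC]; exact AddSubgroup.card_dvd_of_le hle
  have hne : Nat.card H₀ ≠ N ^ 2 := by
    intro h
    have : H₀ = M := AddSubgroup.eq_of_le_of_card_ge hH₀M (by rw [h, hcardM])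
    have hT₀ : T₀ ∈ H₀ := by rw [this]; exact (hmemM T₀).mpr hNT
    exact hT hT₀.2
  obtain ⟨k, hk, hkd⟩ := (Nat.dvd_prime_pow hN).mp hd1
  have hcardH : Nat.card H₀ = N := by
    interval_cases k
    · rw [hkd, pow_zero] at hd2
      exact absurd (Nat.eq_one_of_dvd_one hd2) hN.one_lt.ne'
    · rw [hkd, pow_one]
    · exact absurd hkd hne
  have : Finite H₀ := Nat.finite_of_card_ne_zero (by rw [hcardH]; exact hN.ne_zero)
  have heq : C₀ = H₀ := AddSubgroup.eq_of_le_of_card_ge hle (by rw [hcardH, hcardC])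
  rw [heq]
  exact ⟨(hmemM P).mpr hNP, hP⟩

/-! ### A torsion point at the node -/

section node

variable {V : WeierstrassCurve Qbar} {A : ValuationSubring Qbar}

open Fermat.Agent.S13.Iface in
theorem exists_torsion_at_node (hV : IsNodalForm V)
    (H : NodalData.Hyp A.valuation V.a₁ V.a₂ V.a₄) {N : ℕ} (hodd : Odd N) (hN1 : 1 < N)
    (hvN : A.valuation (N : Qbar) = 1) :
    ∃ T₀ : V.toAffine.Point, N • T₀ = 0 ∧ T₀ ≠ 0 ∧ A.valuation (ptX V T₀) < 1 := by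
  classical
  obtain ⟨hTC, hVS⟩ := Fermat.Agent.S13.CU.Main.torsionCard_valSum V hV.disc hodd
  have hNpos : 0 < N := by omega
  have hfin : Finite (Submodule.torsionBy ℤ V.toAffine.Point N) := hTC.finite hNpos
  have hfinset : {T : V.toAffine.Point | N • T = 0 ∧ T ≠ 0}.Finite := by
    have h1 : ((Submodule.torsionBy ℤ V.toAffine.Point N : Set V.toAffine.Point)).Finite :=
      Set.toFinite _
    refine h1.subset ?_
    intro T hT
    exact (mem_torsionBy_iff_nsmul V N T).mpr hT.1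
  set S : Finset V.toAffine.Point := hfinset.toFinset with hS
  have hSmem : ∀ T, T ∈ S ↔ N • T = 0 ∧ T ≠ 0 := by
    intro T
    rw [hS, Set.Finite.mem_toFinset]
    rfl
  have hb6 : V.b₆ = 0 := by
    rw [WeierstrassCurve.b₆, hV.a3, hV.a6]; ring
  have hb4 : V.b₄ = 2 * V.a₄ := by
    rw [WeierstrassCurve.b₄, hV.a3]; ring
  have he : 4 * (0 : Qbar) ^ 3 + V.b₂ * 0 ^ 2 + 2 * V.b₄ * 0 + V.b₆ = 0 := by
    rw [hb6]; ring
  have key := hVS 0 he S hSmem
  have h4 : (4 : Qbar) ≠ 0 := by norm_num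
  have h4p : (4 : Qbar) ^ (N ^ 2 - 1) ≠ 0 := pow_ne_zero _ h4
  have key2 : (N : Qbar) ^ 4 * ∏ T ∈ S, (xc V T) ^ 2 = V.a₄ ^ (N ^ 2 - 1) := by
    apply mul_left_cancel₀ h4p
    have e1 : (12 * (0 : Qbar) ^ 2 + 2 * V.b₂ * 0 + 2 * V.b₄) = 4 * V.a₄ := by
      rw [hb4]; ring
    rw [e1, mul_pow] at key
    rw [← key]
    have : ∀ T ∈ S, (xc V T - 0) ^ 2 = xc V T ^ 2 := fun T _ => by rw [sub_zero]
    rw [Finset.prod_congr rfl this]
    ring
  have hval := congrArg A.valuation key2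
  rw [map_mul, map_pow, hvN, one_pow, one_mul, map_prod, map_pow] at hval
  have hlt : A.valuation V.a₄ ^ (N ^ 2 - 1) < 1 := by
    have hne : N ^ 2 - 1 ≠ 0 := by
      have : 1 < N ^ 2 := by nlinarith
      omega
    exact pow_lt_one₀ zero_le H.a4 hne
  by_contra hcon
  push Not at hcon
  have hge : ∀ T ∈ S, 1 ≤ A.valuation (xc V T ^ 2) := by
    intro T hT
    obtain ⟨hNT, hT0⟩ := (hSmem T).mp hT
    have h1 := hcon T hNT hT0
    have hx : xc V T = ptX V T := by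
      cases T <;> rfl
    rw [hx, map_pow]
    exact one_le_pow₀ h1
  have hprod : 1 ≤ ∏ T ∈ S, A.valuation (xc V T ^ 2) := Finset.one_le_prod' hge
  rw [hval] at hprod
  exact absurd hprod (not_le.mpr hlt)

end node

/-! ### The integral model -/

variable (W : WeierstrassCurve ℤ)

/-- **(L-oo), geometric part**: `ψ₂` is a unit at the non-trivial multiples of `Q`, and Velu's `t`
lies in the maximal ideal at every `N`-torsion point outside `⟨Q⟩`. -/
theorem torsion_dichotomy {q : ℕ} (hq : q.Prime) (hqΔ : (q : ℤ) ∣ W.Δ)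
    (hqc : ¬ (q : ℤ) ∣ W.c₄) (hΔ0 : W.Δ ≠ 0) (A : ValuationSubring Qbar)
    (hA : A.LiesOverPrime q) {N : ℕ} (hN : N.Prime) (hN2 : N ≠ 2) (hNq : N ≠ q)
    (Q : ((EQ W)⁄Qbar).Point) (hQ0 : Q ≠ 0) (hNQ : N • Q = 0)
    (hQ : W.InZeroComponentAt A Q) :
    (∀ i : ℕ, ¬ N ∣ i → i • Q ≠ 0 ∧ A.valuation (psi2 ((EQ W)⁄Qbar) (i • Q)) = 1) ∧
    (∀ P : ((EQ W)⁄Qbar).Point, N • P = 0 → P ∉ AddSubgroup.zmultiples Q →
      A.valuation (tP ((EQ W)⁄Qbar) P) < 1) := by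
  classical
  obtain ⟨r, t, hr, ht, hT, hV, H⟩ := exists_nodal W hq hqΔ hqc hΔ0 A hA
  have hvN : A.valuation ((N : ℕ) : Qbar) = 1 :=
    Fermat.Agent.S58.Red.Good.valuation_natCast_eq_one hq hA
      ((Nat.coprime_primes hN hq).mpr hNq)
  set D := nodalData hV with hD
  set Q' := (phi (W' := EQ W) r t).symm Q with hQ'
  have hphiQ : phi (W' := EQ W) r t Q' = Q := AddEquiv.apply_symm_apply _ _
  have hNQ' : N • Q' = 0 := by
    rw [hQ', ← map_nsmul, hNQ, _root_.map_zero]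
  have hQ'0 : Q' ≠ 0 := by
    intro h
    apply hQ0
    rw [← hphiQ, h, _root_.map_zero]
  have hE0 : D.E0 A.valuation Q' := by
    rw [← hphiQ] at hQ
    exact (inZero_phi_iff hr ht hT hV H Q').mp hQ
  constructor
  · intro i hi
    obtain ⟨hne, _, hTu⟩ := multiples_unit D A.valuation H hN hN2 hvN hQ'0 hNQ' hE0 hi
    have hphi_i : phi (W' := EQ W) r t (i • Q') = i • Q := by
      rw [map_nsmul, hphiQ]
    rw [← hphi_i]
    refine ⟨phi_ne_zero r t hne, ?_⟩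
    rw [psi2_phi hT hV hne]; exact hTu
  · intro P hNP hPQ
    have hodd : Odd N := hN.odd_of_ne_two hN2
    obtain ⟨T₀, hNT₀, hT₀0, hT₀X⟩ :=
      exists_torsion_at_node (V := V (EQ W) r t) hV H hodd hN.one_lt hvN
    have hcard := (Fermat.Agent.S13.CU.Main.torsionCard_valSum (V (EQ W) r t) hV.disc hodd).1
    set P' := (phi (W' := EQ W) r t).symm P with hP'
    have hphiP : phi (W' := EQ W) r t P' = P := AddEquiv.apply_symm_apply _ _
    have hNP' : N • P' = 0 := by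
      rw [hP', ← map_nsmul, hNP, _root_.map_zero]
    have hnE0 : ¬ D.E0 A.valuation P' := by
      intro hE0P
      have hT₀E0 : T₀ ∉ E0sub D A.valuation H := by
        rintro (h0 | h1)
        · exact hT₀0 h0
        · exact absurd h1 (not_le.mpr hT₀X)
      have hmem := mem_zmultiples_of_mem hN hcard (E0sub D A.valuation H) hQ'0 hNQ' hE0 hNT₀
        hT₀E0 hNP' hE0P
      apply hPQ
      obtain ⟨k, hk⟩ := AddSubgroup.mem_zmultiples_iff.mp hmem
      refine AddSubgroup.mem_zmultiples_iff.mpr ⟨k, ?_⟩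
      rw [← hphiQ, ← hphiP, ← hk, map_zsmul]
    have hP'0 : P' ≠ 0 := fun h => hnE0 (Or.inl h)
    have hXlt : A.valuation (D.X P') < 1 := by
      by_contra hcon
      exact hnE0 (Or.inr (not_lt.mp hcon))
    obtain ⟨_, _, _, htq⟩ := node_facts D A.valuation H hP'0 hXlt
    rw [← hphiP, tP_phi hT hV hP'0]
    exact htq

/-- The non-zero multiples of `Q` inside the `N`-torsion. -/
theorem filter_zmultiples_eq {G : Type*} [AddCommGroup G] [DecidableEq G] {N : ℕ}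
    (hN : N.Prime) {Q : G} (hQ0 : Q ≠ 0) (hNQ : N • Q = 0) (T : Finset G)
    (hT : ∀ P, P ∈ T ↔ N • P = 0 ∧ P ≠ 0) :
    T.filter (fun P => P ∈ AddSubgroup.zmultiples Q)
      = (Finset.Icc 1 (N - 1)).image (fun i : ℕ => i • Q) := by
  have hord : addOrderOf Q = N := addOrderOf_eq_of_prime hN hQ0 hNQ
  have hfin : IsOfFinAddOrder Q := by
    rw [← addOrderOf_pos_iff, hord]; exact hN.pos
  ext P
  rw [Finset.mem_filter, Finset.mem_image, hT]
  constructor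
  · rintro ⟨⟨hNP, hP0⟩, hmem⟩
    rw [hfin.mem_zmultiples_iff_mem_range_addOrderOf, Finset.mem_image] at hmem
    obtain ⟨i, hi, rfl⟩ := hmem
    rw [Finset.mem_range, hord] at hi
    refine ⟨i, ?_, rfl⟩
    rw [Finset.mem_Icc]
    refine ⟨?_, by omega⟩
    rcases Nat.eq_zero_or_pos i with h0 | h0
    · exfalso; apply hP0; rw [h0, zero_smul]
    · exact h0
  · rintro ⟨i, hi, rfl⟩
    rw [Finset.mem_Icc] at hi
    have hnd : ¬ N ∣ i := by
      intro hd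
      have := Nat.le_of_dvd (by omega) hd
      have := hN.two_le
      omega
    refine ⟨⟨?_, nsmul_ne_zero_of_prime hN hQ0 hNQ hnd⟩, ?_⟩
    · rw [smul_comm, hNQ, smul_zero]
    · exact AddSubgroup.nsmul_mem_zmultiples Q i

theorem sum_filter_zmultiples {G : Type*} [AddCommGroup G] [DecidableEq G] {K : Type*}
    [AddCommMonoid K] {N : ℕ}
    (hN : N.Prime) {Q : G} (hQ0 : Q ≠ 0) (hNQ : N • Q = 0) (T : Finset G)
    (hT : ∀ P, P ∈ T ↔ N • P = 0 ∧ P ≠ 0) (f : G → K) :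
    ∑ P ∈ T.filter (fun P => P ∈ AddSubgroup.zmultiples Q), f P
      = ∑ i ∈ Finset.Icc 1 (N - 1), f (i • Q) := by
  have hord : addOrderOf Q = N := addOrderOf_eq_of_prime hN hQ0 hNQ
  rw [filter_zmultiples_eq hN hQ0 hNQ T hT, Finset.sum_image]
  intro i hi j hj hij
  have hi' : i ∈ Set.Iio (addOrderOf Q) := by
    rw [hord, Set.mem_Iio]
    have := (Finset.mem_Icc.mp hi).2
    have := hN.two_le
    omega
  have hj' : j ∈ Set.Iio (addOrderOf Q) := by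
    rw [hord, Set.mem_Iio]
    have := (Finset.mem_Icc.mp hj).2
    have := hN.two_le
    omega
  exact nsmul_injOn_Iio_addOrderOf hi' hj' hij

/-- **(L-oo): Velu's `c₄'` is a unit.** -/
theorem val_c4'_eq_one {q : ℕ} (hq : q.Prime) (hqΔ : (q : ℤ) ∣ W.Δ)
    (hqc : ¬ (q : ℤ) ∣ W.c₄) (hΔ0 : W.Δ ≠ 0) (A : ValuationSubring Qbar)
    (hA : A.LiesOverPrime q) {N : ℕ} (hN : N.Prime) (hN2 : N ≠ 2) (hNq : N ≠ q)
    (Q : ((EQ W)⁄Qbar).Point) (hQ0 : Q ≠ 0) (hNQ : N • Q = 0)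
    (hQ : W.InZeroComponentAt A Q)
    (T : Finset ((EQ W)⁄Qbar).Point) (hT : ∀ P, P ∈ T ↔ N • P = 0 ∧ P ≠ 0)
    (hS3a : 120 * ∑ P ∈ T, tP ((EQ W)⁄Qbar) P = ((N : Qbar) ^ 4 - 1) * ((EQ W)⁄Qbar).c₄)
    (c4' : Qbar)
    (hc4' : c4' = ((EQ W)⁄Qbar).c₄
      + 120 * ∑ i ∈ Finset.Icc 1 (N - 1), tP ((EQ W)⁄Qbar) (i • Q)) :
    A.valuation c4' = 1 := by
  classical
  obtain ⟨_, hoff⟩ := torsion_dichotomy W hq hqΔ hqc hΔ0 A hA hN hN2 hNq Q hQ0 hNQ hQ
  have hvN : A.valuation ((N : ℕ) : Qbar) = 1 :=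
    Fermat.Agent.S58.Red.Good.valuation_natCast_eq_one hq hA
      ((Nat.coprime_primes hN hq).mpr hNq)
  have hvc4 : A.valuation ((EQ W)⁄Qbar).c₄ = 1 := by
    rw [c₄_eq]
    exact Fermat.Agent.S05.LocalVal.intCast_valuation_eq_one hq hA hqc
  have hsplit := Finset.sum_filter_add_sum_filter_not T
    (fun P => P ∈ AddSubgroup.zmultiples Q) (tP ((EQ W)⁄Qbar))
  rw [sum_filter_zmultiples hN hQ0 hNQ T hT] at hsplit
  set S2 := ∑ P ∈ T.filter (fun P => ¬ P ∈ AddSubgroup.zmultiples Q), tP ((EQ W)⁄Qbar) P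
    with hS2
  have hc : c4' = (N : Qbar) ^ 4 * ((EQ W)⁄Qbar).c₄ - 120 * S2 := by
    rw [hc4']
    linear_combination hS3a + 120 * hsplit
  have hS2v : A.valuation S2 < 1 := by
    refine Valuation.map_sum_lt _ one_ne_zero fun P hP => ?_
    rw [Finset.mem_filter, hT] at hP
    exact hoff P hP.1.1 hP.2
  have h120 : A.valuation (120 * S2) < 1 := by
    rw [map_mul]
    have h : A.valuation (120 : Qbar) ≤ 1 := by
      have h' := val_natCast_le_one A.valuation 120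
      rwa [Nat.cast_ofNat] at h'
    calc A.valuation (120 : Qbar) * A.valuation S2 ≤ 1 * A.valuation S2 := mul_le_mul_left h _
      _ = A.valuation S2 := one_mul _
      _ < 1 := hS2v
  have hmain : A.valuation ((N : Qbar) ^ 4 * ((EQ W)⁄Qbar).c₄) = 1 := by
    rw [map_mul, map_pow, hvN, one_pow, one_mul, hvc4]
  rw [hc, sub_eq_add_neg]
  rw [Valuation.map_add_eq_of_lt_left _ (by rw [Valuation.map_neg, hmain]; exact h120), hmain]

/-! ### Valuation algebra -/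

theorem val_quot_inf_lt_one {K : Type*} [Field K] {Γ₀ : Type*}
    [LinearOrderedCommGroupWithZero Γ₀] (v : Valuation K Γ₀) {N : ℕ} (hN : 2 ≤ N)
    (c4 Δ c4' Δ' : K) (ψ : ℕ → K)
    (hc4 : v c4 = 1) (hc4' : v c4' = 1) (hΔ0 : Δ ≠ 0) (hΔ : v Δ < 1)
    (hψ : ∀ i ∈ Finset.Icc 1 (N - 1), v (ψ i) = 1)
    (hΔ' : Δ' * ∏ i ∈ Finset.Icc 1 (N - 1), ψ i ^ 4 = Δ ^ N) :
    v ((c4 ^ 3 / Δ) / (c4' ^ 3 / Δ') ^ N) < 1 := by
  have hΔN : Δ ^ N ≠ 0 := pow_ne_zero _ hΔ0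
  have hΔ'0 : Δ' ≠ 0 := by
    rintro rfl
    rw [zero_mul] at hΔ'
    exact hΔN hΔ'.symm
  have hPi : v (∏ i ∈ Finset.Icc 1 (N - 1), ψ i ^ 4) = 1 := by
    rw [map_prod]
    refine Finset.prod_eq_one fun i hi => ?_
    rw [map_pow, hψ i hi, one_pow]
  have hvΔ' : v Δ' = v Δ ^ N := by
    have h := congrArg v hΔ'
    rwa [map_mul, hPi, mul_one, map_pow] at h
  have hvΔ0 : v Δ ≠ 0 := (Valuation.ne_zero_iff v).mpr hΔ0
  have hc4'0 : c4' ≠ 0 := by
    rintro rfl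
    rw [_root_.map_zero] at hc4'
    exact zero_ne_one hc4'
  have e : (c4 ^ 3 / Δ) / (c4' ^ 3 / Δ') ^ N = c4 ^ 3 * Δ' ^ N / (Δ * (c4' ^ 3) ^ N) := by
    rw [div_pow]
    field_simp
  rw [e, map_div₀, map_mul, map_mul, map_pow, map_pow, map_pow, map_pow, hc4, hc4', hvΔ']
  simp only [one_pow, one_mul, mul_one]
  rw [← pow_mul, div_lt_one₀ (zero_lt_iff.mpr hvΔ0)]
  have h1 : N * N = (N * N - 1) + 1 := by
    have : 1 ≤ N * N := Nat.one_le_iff_ne_zero.mpr (by positivity)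
    omega
  rw [h1, pow_succ]
  have h2 : v Δ ^ (N * N - 1) < 1 := by
    refine pow_lt_one₀ zero_le hΔ ?_
    have : 4 ≤ N * N := by nlinarith
    omega
  calc v Δ ^ (N * N - 1) * v Δ < 1 * v Δ :=
        mul_lt_mul_of_pos_right h2 (zero_lt_iff.mpr hvΔ0)
    _ = v Δ := one_mul _

/-- **(L-oo)**: for `Q` of odd prime order `N ≠ q` in the zero component at `A`: with the identity
`120 ∑_{E[N] ∖ 0} t = (N⁴ - 1) c₄`, Velu's `c₄' = c₄ + 120 ∑ t(iQ)` and (V-DELTA) for `⟨Q⟩`, the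
quotient invariant `j' = c₄'³/Δ'` satisfies `v (j / j' ^ N) < 1`. -/
theorem quot_mem {q : ℕ} (hq : q.Prime) (hqΔ : (q : ℤ) ∣ W.Δ)
    (hqc : ¬ (q : ℤ) ∣ W.c₄) (hΔ0 : W.Δ ≠ 0) (A : ValuationSubring Qbar)
    (hA : A.LiesOverPrime q) {N : ℕ} (hN : N.Prime) (hN2 : N ≠ 2) (hNq : N ≠ q)
    (Q : ((EQ W)⁄Qbar).Point) (hQ0 : Q ≠ 0) (hNQ : N • Q = 0)
    (hQ : W.InZeroComponentAt A Q)
    (T : Finset ((EQ W)⁄Qbar).Point) (hT : ∀ P, P ∈ T ↔ N • P = 0 ∧ P ≠ 0)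
    (hS3a : 120 * ∑ P ∈ T, tP ((EQ W)⁄Qbar) P = ((N : Qbar) ^ 4 - 1) * ((EQ W)⁄Qbar).c₄)
    (c4' Δ' : Qbar)
    (hc4' : c4' = ((EQ W)⁄Qbar).c₄
      + 120 * ∑ i ∈ Finset.Icc 1 (N - 1), tP ((EQ W)⁄Qbar) (i • Q))
    (hΔ' : Δ' * ∏ i ∈ Finset.Icc 1 (N - 1), psi2 ((EQ W)⁄Qbar) (i • Q) ^ 4
      = ((EQ W)⁄Qbar).Δ ^ N) :
    A.valuation ((((EQ W)⁄Qbar).c₄ ^ 3 / ((EQ W)⁄Qbar).Δ) / (c4' ^ 3 / Δ') ^ N) < 1 := by
  have hc4'v := val_c4'_eq_one W hq hqΔ hqc hΔ0 A hA hN hN2 hNq Q hQ0 hNQ hQ T hT hS3a c4' hc4'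
  obtain ⟨hon, _⟩ := torsion_dichotomy W hq hqΔ hqc hΔ0 A hA hN hN2 hNq Q hQ0 hNQ hQ
  refine val_quot_inf_lt_one A.valuation hN.two_le _ _ c4' Δ'
    (fun i => psi2 ((EQ W)⁄Qbar) (i • Q)) ?_ hc4'v ?_ ?_ ?_ hΔ'
  · rw [c₄_eq]
    exact Fermat.Agent.S05.LocalVal.intCast_valuation_eq_one hq hA hqc
  · rw [Δ_eq]
    exact_mod_cast hΔ0
  · rw [Δ_eq]
    exact Fermat.Agent.S05.LocalVal.intCast_valuation_lt_one hq hA hqΔ
  · intro i hi
    rw [Finset.mem_Icc] at hi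
    have hnd : ¬ N ∣ i := by
      intro hd
      have := Nat.le_of_dvd (by omega) hd
      have := hN.two_le
      omega
    exact (hon i hnd).2

end Fermat.Agent.S15.E2.Local.Inf
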