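import Fermat.Agent.S15.E2.Local.Bridge

/-!
# S15, block E2 (local side), part 3: Velu's point quantities and their transfer to the nodal model

For a Weierstrass curve `E` over a field and a point `P`:
`psi2 P = 2 y + a₁ x + a₃` and `tP P = 6 x² + b₂ x + b₄` (junk values at the origin).
Both are invariant under the translation `⟨1, r, 0, t⟩`; on the nodal model they are
`NodalData.T` and `Nodal.tq`.
-/

set_option autoImplicit false
set_option linter.unusedSectionVars false
set_option linter.unusedVariables false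

noncomputable section

namespace Fermat.Agent.S15.E2.Local.Quant

open WeierstrassCurve WeierstrassCurve.Affine WeierstrassCurve.Affine.Point
open Fermat.Agent.S13.Local Fermat.Agent.S13.Local.NodalInst
open Fermat.Agent.S58.Mult.Unipotent
open Fermat.Agent.S15.E2.Local.Nodal Fermat.Agent.S15.E2.Local.Bridge

local notation "Qbar" => AlgebraicClosure ℚ

section defs

variable {K : Type*} [Field K] (E : WeierstrassCurve K)

/-- `ψ₂ = 2 y + a₁ x + a₃` at a point. -/
def psi2 (P : E.toAffine.Point) : K := 2 * ptY E P + E.a₁ * ptX E P + E.a₃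

/-- Velu's `t_P = 6 x² + b₂ x + b₄` at a point. -/
def tP (P : E.toAffine.Point) : K := 6 * ptX E P ^ 2 + E.b₂ * ptX E P + E.b₄

end defs

variable {W : WeierstrassCurve ℤ} {r t : Qbar}

theorem psi2_phi (hT : TransRel W r t) (hV : IsNodalForm (V (EQ W) r t))
    {P' : (V (EQ W) r t).toAffine.Point} (hP : P' ≠ 0) :
    psi2 ((EQ W)⁄Qbar) (phi (W' := EQ W) r t P') = (nodalData hV).T P' := by
  unfold psi2 NodalData.T
  rw [ptX_phi r t hP, ptY_phi r t hP, nodalData_X, nodalData_Y, hT.a1]
  linear_combination hT.a3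

theorem tP_phi (hT : TransRel W r t) (hV : IsNodalForm (V (EQ W) r t))
    {P' : (V (EQ W) r t).toAffine.Point} (hP : P' ≠ 0) :
    tP ((EQ W)⁄Qbar) (phi (W' := EQ W) r t P') = tq (nodalData hV) P' := by
  unfold tP tq
  rw [ptX_phi r t hP, nodalData_X, hT.a1, hT.a2, hT.a4, WeierstrassCurve.b₂,
    WeierstrassCurve.b₄]
  linear_combination (((EQ W)⁄Qbar).a₁) * hT.a3

theorem ptX_phi_mem {A : ValuationSubring Qbar} (hr : r ∈ A)
    {P' : (V (EQ W) r t).toAffine.Point} (hP : P' ≠ 0)
    (hX : A.valuation (ptX (V (EQ W) r t) P') ≤ 1) :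
    ptX ((EQ W)⁄Qbar) (phi (W' := EQ W) r t P') ∈ A := by
  rw [ptX_phi r t hP]
  exact A.add_mem _ _ ((A.valuation_le_one_iff _).mp hX) hr

end Fermat.Agent.S15.E2.Local.Quant
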