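import Fermat.Agent.S15.E2.Local.Quant

/-!
# S15, block E2 (local side), part 4: a point of prime order OUTSIDE the zero component

`W : WeierstrassCurve ℤ`, `q ∣ Δ`, `q ∤ c₄`, `A` a valuation subring of `ℚ̄` over `q`,
`Q ∈ E(ℚ̄)` with `N • Q = 0`, `N` prime, `Q` not in the zero component at `A`.

* `at_node`: every multiple `i • Q` (`N ∤ i`) is non-zero, has integral `x`-coordinate, and
  `ψ₂ = 2y + a₁x + a₃`, `t = 6x² + b₂x + b₄` lie in the maximal ideal there (any residue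
  characteristic).
* `val_quot_lt_one` (pure valuation algebra): if `Δ' * ∏_{i=1}^{N-1} ψ_i⁴ = Δ^N` (the identity
  (V-DELTA) for the Velu quotient), `c₄' = c₄ + κ ∑ t_i` with `κ` integral, `c₄` a unit and all `ψ_i`, `t_i` in the
  maximal ideal, then `(c₄'³/Δ') / (c₄³/Δ)^N` lies in the maximal ideal.
* `quot_mem`: the two combined: `v (j' / j ^ N) < 1`.
-/

set_option autoImplicit false
set_option linter.unusedSectionVars false
set_option linter.unusedVariables false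

noncomputable section

namespace Fermat.Agent.S15.E2.Local.Zero

open WeierstrassCurve WeierstrassCurve.Affine WeierstrassCurve.Affine.Point
open Fermat.Agent.S13.Local Fermat.Agent.S13.Local.NodalInst
open Fermat.Agent.S58.Mult.Unipotent
open Fermat.Agent.S15.E2.Local.Nodal Fermat.Agent.S15.E2.Local.Bridge
open Fermat.Agent.S15.E2.Local.Quant

local notation "Qbar" => AlgebraicClosure ℚ

/-! ### Valuation algebra -/

section valuation

variable {K : Type*} [Field K] {Γ₀ : Type*} [LinearOrderedCommGroupWithZero Γ₀]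
  (v : Valuation K Γ₀)

theorem prod_lt_one {ι : Type*} (s : Finset ι) (f : ι → Γ₀) (hs : s.Nonempty)
    (hf : ∀ i ∈ s, f i < 1) : ∏ i ∈ s, f i < 1 := by
  classical
  obtain ⟨i₀, hi₀⟩ := hs
  rw [← Finset.mul_prod_erase s f hi₀]
  have h1 : ∏ i ∈ s.erase i₀, f i ≤ 1 :=
    Finset.prod_le_one' fun i hi => (hf i (Finset.mem_of_mem_erase hi)).le
  calc f i₀ * ∏ i ∈ s.erase i₀, f i ≤ f i₀ * 1 := mul_le_mul_right h1 _
    _ = f i₀ := mul_one _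
    _ < 1 := hf i₀ hi₀

theorem val_natCast_le_one (n : ℕ) : v (n : K) ≤ 1 := by
  induction n with
  | zero => simp
  | succ n ih =>
    rw [Nat.cast_succ]
    exact le_trans (v.map_add _ _) (max_le ih (le_of_eq v.map_one))

/-- **(L-0), valuation algebra.** -/
theorem val_quot_lt_one {N : ℕ} (hN : 2 ≤ N) (c4 Δ c4' Δ' κ : K) (ψ tt : ℕ → K) (m : ℕ)
    (hκ : v κ ≤ 1) (hc4 : v c4 = 1) (hΔ0 : Δ ≠ 0)
    (hψ : ∀ i ∈ Finset.Icc 1 (N - 1), v (ψ i) < 1)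
    (ht : ∀ i ∈ Finset.Icc 1 m, v (tt i) < 1)
    (hc4' : c4' = c4 + κ * ∑ i ∈ Finset.Icc 1 m, tt i)
    (hΔ' : Δ' * ∏ i ∈ Finset.Icc 1 (N - 1), ψ i ^ 4 = Δ ^ N) :
    v ((c4' ^ 3 / Δ') / (c4 ^ 3 / Δ) ^ N) < 1 := by
  have hΔN : Δ ^ N ≠ 0 := pow_ne_zero _ hΔ0
  have hΔ'0 : Δ' ≠ 0 := by
    rintro rfl
    rw [zero_mul] at hΔ'
    exact hΔN hΔ'.symm
  have hc40 : c4 ≠ 0 := by
    rintro rfl
    rw [_root_.map_zero] at hc4
    exact zero_ne_one hc4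
  have hsum : v (∑ i ∈ Finset.Icc 1 m, tt i) < 1 :=
    Valuation.map_sum_lt v one_ne_zero ht
  have h240 : v (κ * ∑ i ∈ Finset.Icc 1 m, tt i) < 1 := by
    rw [map_mul]
    calc v κ * v (∑ i ∈ Finset.Icc 1 m, tt i)
        ≤ 1 * v (∑ i ∈ Finset.Icc 1 m, tt i) := mul_le_mul_left hκ _
      _ = v (∑ i ∈ Finset.Icc 1 m, tt i) := one_mul _
      _ < 1 := hsum
  have hc4'v : v c4' = 1 := by
    rw [hc4', Valuation.map_add_eq_of_lt_left _ (by rw [hc4]; exact h240), hc4]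
  have hne : (Finset.Icc 1 (N - 1)).Nonempty := ⟨1, Finset.mem_Icc.mpr ⟨le_rfl, by omega⟩⟩
  have hPi : v (∏ i ∈ Finset.Icc 1 (N - 1), ψ i ^ 4) < 1 := by
    rw [map_prod]
    refine prod_lt_one _ _ hne fun i hi => ?_
    rw [map_pow]
    exact pow_lt_one₀ zero_le (hψ i hi) (by norm_num)
  have key : (c4' ^ 3 / Δ') / (c4 ^ 3 / Δ) ^ N
      = c4' ^ 3 * (∏ i ∈ Finset.Icc 1 (N - 1), ψ i ^ 4) / (c4 ^ 3) ^ N := by
    rw [div_pow, ← hΔ']
    field_simp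
  rw [key, map_div₀, map_mul, map_pow, map_pow, map_pow, hc4'v, hc4]
  simpa using hPi

end valuation

/-! ### The multiples of `Q` reduce to the node -/

variable (W : WeierstrassCurve ℤ)

/-- **(L-0), geometric part.** -/
theorem at_node {q : ℕ} (hq : q.Prime) (hqΔ : (q : ℤ) ∣ W.Δ)
    (hqc : ¬ (q : ℤ) ∣ W.c₄) (hΔ0 : W.Δ ≠ 0) (A : ValuationSubring Qbar)
    (hA : A.LiesOverPrime q) {N : ℕ} (hN : N.Prime) (Q : ((EQ W)⁄Qbar).Point)
    (hNQ : N • Q = 0) (hQ : ¬ W.InZeroComponentAt A Q) {i : ℕ} (hi : ¬ N ∣ i) :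
    i • Q ≠ 0 ∧ ptX ((EQ W)⁄Qbar) (i • Q) ∈ A ∧
      A.valuation (psi2 ((EQ W)⁄Qbar) (i • Q)) < 1 ∧
      A.valuation (tP ((EQ W)⁄Qbar) (i • Q)) < 1 := by
  obtain ⟨r, t, hr, ht, hT, hV, H⟩ := exists_nodal W hq hqΔ hqc hΔ0 A hA
  set Q' := (phi (W' := EQ W) r t).symm Q with hQ'
  have hphiQ : phi (W' := EQ W) r t Q' = Q := AddEquiv.apply_symm_apply _ _
  have hNQ' : N • Q' = 0 := by
    rw [hQ', ← map_nsmul, hNQ, _root_.map_zero]
  have hnE0 : ¬ (nodalData hV).E0 A.valuation Q' := by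
    intro h
    apply hQ
    rw [← hphiQ]
    exact (inZero_phi_iff hr ht hT hV H Q').mpr h
  obtain ⟨hne, hXlt⟩ := multiples_at_node (nodalData hV) A.valuation H hN hNQ' hnE0 hi
  obtain ⟨_, hTlt, _, htq⟩ := node_facts (nodalData hV) A.valuation H hne hXlt
  have hphi_i : phi (W' := EQ W) r t (i • Q') = i • Q := by
    rw [map_nsmul, hphiQ]
  rw [← hphi_i]
  refine ⟨phi_ne_zero r t hne, ?_, ?_, ?_⟩
  · exact ptX_phi_mem hr hne hXlt.le
  · rw [psi2_phi hT hV hne]; exact hTlt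
  · rw [tP_phi hT hV hne]; exact htq

/-- **(L-0)**: for `Q` of prime order `N` outside the zero component at `A`, and any `c₄'`, `Δ'`
satisfying Velu's `c₄' = c₄ + 120 ∑_{i=1}^{N-1} t(iQ)` and the identity (V-DELTA), the quotient invariant
`j' = c₄'³/Δ'` satisfies `v (j' / j ^ N) < 1`. -/
theorem quot_mem {q : ℕ} (hq : q.Prime) (hqΔ : (q : ℤ) ∣ W.Δ)
    (hqc : ¬ (q : ℤ) ∣ W.c₄) (hΔ0 : W.Δ ≠ 0) (A : ValuationSubring Qbar)
    (hA : A.LiesOverPrime q) {N : ℕ} (hN : N.Prime) (Q : ((EQ W)⁄Qbar).Point)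
    (hNQ : N • Q = 0) (hQ : ¬ W.InZeroComponentAt A Q) (c4' Δ' : Qbar)
    (hc4' : c4' = ((EQ W)⁄Qbar).c₄
      + 120 * ∑ i ∈ Finset.Icc 1 (N - 1), tP ((EQ W)⁄Qbar) (i • Q))
    (hΔ' : Δ' * ∏ i ∈ Finset.Icc 1 (N - 1), psi2 ((EQ W)⁄Qbar) (i • Q) ^ 4
      = ((EQ W)⁄Qbar).Δ ^ N) :
    A.valuation ((c4' ^ 3 / Δ') / (((EQ W)⁄Qbar).c₄ ^ 3 / ((EQ W)⁄Qbar).Δ) ^ N) < 1 := by
  have hndvd : ∀ {m : ℕ}, ∀ i ∈ Finset.Icc 1 m, m ≤ N - 1 → ¬ N ∣ i := by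
    intro m i hi hm hd
    rw [Finset.mem_Icc] at hi
    have := Nat.le_of_dvd (by omega) hd
    have := hN.two_le
    omega
  refine val_quot_lt_one A.valuation hN.two_le _ _ c4' Δ' 120
    (fun i => psi2 ((EQ W)⁄Qbar) (i • Q)) (fun i => tP ((EQ W)⁄Qbar) (i • Q)) (N - 1)
    ?_ ?_ ?_ ?_ ?_ hc4' hΔ'
  · have h' := val_natCast_le_one A.valuation 120
    rwa [Nat.cast_ofNat] at h'
  · rw [c₄_eq]
    exact Fermat.Agent.S05.LocalVal.intCast_valuation_eq_one hq hA hqc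
  · rw [Δ_eq]
    exact_mod_cast hΔ0
  · intro i hi
    exact (at_node W hq hqΔ hqc hΔ0 A hA hN Q hNQ hQ (hndvd i hi le_rfl)).2.2.1
  · intro i hi
    exact (at_node W hq hqΔ hqc hΔ0 A hA hN Q hNQ hQ (hndvd i hi le_rfl)).2.2.2

end Fermat.Agent.S15.E2.Local.Zero
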